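/-
S55 / leaf 35f-FULLDEG-PLACE (helper6), part 2: a place of FULL LOCAL DEGREE in a cyclic `p`-power
layer, unconditionally from the landed S14 density package (`AuxPrimes6.exists_inert_degOne`).

`L/ℚ` finite Galois inside `ℚbar` (vocabulary of `Idele73.Basic`), `H₁ ≤ H ≤ Gal(L/ℚ)` with `H₁`
normal of index `p` in `H`.  Outside any finite set `S` of rational primes there is a prime `ℓ` and
`x ∈ Gal(L/ℚ)` such that the conjugate `x⁻¹ * frobL ℓ L * x` of the Frobenius (`FrobFin98`) lies in `H`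
but not in `H₁`: the place `x` of `K = L^H` above `ℓ` has degree one and is inert in `L^{H₁}`, hence
its Frobenius generates `H ⧸ Z` for every `Z ≤ H₁` normal in `H` with `H ⧸ Z` cyclic of `p`-power
order (a cyclic `p`-group has a unique maximal subgroup).  No first inequality is needed.
-/
import Mathlib
import Fermat.Agent.S55.AuxPrimes6
import Fermat.Agent.S55.PlaceCount50.Dict
import Fermat.Agent.S55.FrobFin98.Basic
import Fermat.Agent.S55.FullDeg6.Generic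

set_option autoImplicit false
set_option linter.style.haveILetI false
set_option linter.unusedSectionVars false

open NumberField IsDedekindDomain
open Fermat.Agent.S55.Idele73.Basic Fermat.Agent.S55.PlaceCount50 Fermat.Agent.S55.FrobFin98

namespace Fermat.Agent.S55.FullDeg6

section Frob

variable (q : ℕ) [Fact q.Prime] (L : IntermediateField ℚ Qbar) [FiniteDimensional ℚ L] [Normal ℚ L]

/-- the conjugate `g⁻¹ * frobL * g` of the Frobenius is congruent to the `q`-th power map modulo the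
prime `primeAt q L g`. -/
theorem galRestrict_conj_frobL_sub_pow_mem (g : GalL L) (y : 𝓞 L) :
    galRestrict ℤ ℚ L (𝓞 L) (g⁻¹ * frobL q L * g) y - y ^ q ∈ (primeAt q L g).asIdeal := by
  rw [mem_primeAt_iff]
  have h1 : ((galRestrict ℤ ℚ L (𝓞 L) (g⁻¹ * frobL q L * g) y - y ^ q : 𝓞 L) : L) =
      (g⁻¹ * frobL q L * g) (y : L) - (y : L) ^ q := by
    have := algebraMap_galRestrict_apply ℤ (g⁻¹ * frobL q L * g) y
    change algebraMap (𝓞 L) L _ = _
    rw [map_sub, map_pow, this]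
  rw [h1, map_sub, map_pow]
  have h2 : g ((g⁻¹ * frobL q L * g) (y : L)) = frobL q L (g (y : L)) := by
    simp [AlgEquiv.mul_apply]
  rw [h2, map_sub, map_pow]
  have hy : ‖iotaL q L (g (y : L))‖ ≤ 1 := norm_le_one_of_int (embAt q L g) y
  exact norm_frobL_sub_pow_lt q L (g (y : L)) hy

end Frob

section Under

variable {K F : Type*} [Field K] [NumberField K] [Field F] [NumberField F] [Algebra K F]

/-- The prime of `𝓞 K` below a prime of `𝓞 F`. -/
noncomputable def primeUnder (Q : HeightOneSpectrum (𝓞 F)) : HeightOneSpectrum (𝓞 K) where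
  asIdeal := Q.asIdeal.comap (algebraMap (𝓞 K) (𝓞 F))
  isPrime := Ideal.comap_isPrime _ _
  ne_bot := by
    have hQ0 : Q.asIdeal ≠ ⊥ := Q.ne_bot
    obtain ⟨x, hx, hx0⟩ := Submodule.exists_mem_ne_zero_of_ne_bot hQ0
    exact Ideal.comap_ne_bot_of_integral_mem hx0 hx (Algebra.IsIntegral.isIntegral x)

theorem primeUnder_asIdeal (Q : HeightOneSpectrum (𝓞 F)) :
    (primeUnder (K := K) Q).asIdeal = Q.asIdeal.comap (algebraMap (𝓞 K) (𝓞 F)) := rfl

end Under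

section Main

variable (p : ℕ) [hp : Fact p.Prime] (L : IntermediateField ℚ Qbar) [FiniteDimensional ℚ L]
  [Normal ℚ L]

/-- Core statement, for `H = F.fixingSubgroup`. -/
theorem exists_frob_conj_aux (F : IntermediateField ℚ L) (H₁ : Subgroup (GalL L))
    (h1 : H₁ ≤ F.fixingSubgroup) (hn : (H₁.subgroupOf F.fixingSubgroup).Normal)
    (hidx : H₁.relIndex F.fixingSubgroup = p) (S : Finset Nat.Primes) :
    ∃ (ℓ : ℕ) (_ : Fact ℓ.Prime) (x : GalL L), (⟨ℓ, Fact.out⟩ : Nat.Primes) ∉ S ∧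
      x⁻¹ * frobL ℓ L * x ∈ F.fixingSubgroup ∧ x⁻¹ * frobL ℓ L * x ∉ H₁ := by
  classical
  haveI : IsGalois ℚ L := ⟨⟩
  -- the Galois group of `L/F` and the normal subgroup `N` of index `p`
  set e := IntermediateField.fixingSubgroupEquiv F with he
  set N : Subgroup (L ≃ₐ[F] L) :=
    (H₁.subgroupOf F.fixingSubgroup).map (e : ↥F.fixingSubgroup →* (L ≃ₐ[F] L)) with hN
  haveI hNn : N.Normal := hn.map _ e.surjective
  have hNidx : N.index = p := by
    rw [hN, Subgroup.index_map_equiv]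
    exact hidx
  set E₂ : IntermediateField F L := IntermediateField.fixedField N with hE₂
  haveI : IsGalois F E₂ := IsGalois.of_fixedField_normal_subgroup N
  have hdeg : Module.finrank F E₂ = p := by
    rw [IntermediateField.finrank_eq_fixingSubgroup_index, hE₂,
      IntermediateField.fixingSubgroup_fixedField, hNidx]
  -- the bad primes
  obtain ⟨B₁, hB₁fin, hB₁⟩ := exists_finite_bad F
  set B : Set (HeightOneSpectrum (𝓞 F)) :=
    (primeUnder (K := F) '' B₁) ∪ ⋃ s ∈ S, {Q | ((s : ℕ) : 𝓞 F) ∈ Q.asIdeal} with hB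
  have hBfin : B.Finite := by
    refine (hB₁fin.image _).union (Set.Finite.biUnion S.finite_toSet fun s _ => ?_)
    exact finite_setOf_mem (Nat.cast_ne_zero.mpr s.2.ne_zero)
  obtain ⟨Q, hQB, hQprime, hQinert⟩ :=
    Fermat.Agent.S55.AuxPrimes6.exists_inert_degOne (p := p) (K := F) (L := E₂) hdeg B hBfin
  set ℓ := Ideal.absNorm Q.asIdeal with hℓ
  haveI hℓF : Fact ℓ.Prime := ⟨hQprime⟩
  set Q₁ : Ideal (𝓞 E₂) := Q.asIdeal.map (algebraMap (𝓞 F) (𝓞 E₂)) with hQ₁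
  haveI : Q₁.IsPrime := hQinert
  have hQ₁le : Q.asIdeal ≤ Q₁.comap (algebraMap (𝓞 F) (𝓞 E₂)) := Ideal.le_comap_map
  have hQ₁ne : Q₁ ≠ ⊥ := by
    intro h0
    apply Q.ne_bot
    rw [eq_bot_iff]
    intro x hx
    have : algebraMap (𝓞 F) (𝓞 E₂) x ∈ Q₁ := hQ₁le hx
    rw [h0, Ideal.mem_bot] at this
    exact (Ideal.mem_bot).mpr
      ((injective_iff_map_eq_zero _).mp (FaithfulSMul.algebraMap_injective (𝓞 F) (𝓞 E₂)) x this)
  -- a prime of `L` above `Q₁`
  obtain ⟨P, -, hPprime, hPcomap⟩ :=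
    Ideal.exists_ideal_over_prime_of_isIntegral (S := 𝓞 L) Q₁ (⊥ : Ideal (𝓞 L)) (by
      intro x hx
      rw [Ideal.mem_comap, Ideal.mem_bot] at hx
      have : x = 0 :=
        (injective_iff_map_eq_zero _).mp (FaithfulSMul.algebraMap_injective (𝓞 E₂) (𝓞 L)) x hx
      rw [this]
      exact Q₁.zero_mem)
  have hPne : P ≠ ⊥ := by
    intro h0
    apply hQ₁ne
    rw [← hPcomap, h0, eq_bot_iff]
    intro x hx
    rw [Ideal.mem_comap, Ideal.mem_bot] at hx
    exact (Ideal.mem_bot).mpr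
      ((injective_iff_map_eq_zero _).mp (FaithfulSMul.algebraMap_injective (𝓞 E₂) (𝓞 L)) x hx)
  set 𝔓 : HeightOneSpectrum (𝓞 L) := ⟨P, hPprime, hPne⟩ with h𝔓
  -- `𝔓` lies over `Q`
  have htower : ∀ x : 𝓞 F, algebraMap (𝓞 F) (𝓞 L) x =
      algebraMap (𝓞 E₂) (𝓞 L) (algebraMap (𝓞 F) (𝓞 E₂) x) := fun x =>
    IsScalarTower.algebraMap_apply (𝓞 F) (𝓞 E₂) (𝓞 L) x
  have hQP : ∀ x ∈ Q.asIdeal, algebraMap (𝓞 F) (𝓞 L) x ∈ P := by
    intro x hx
    rw [htower]
    have : algebraMap (𝓞 F) (𝓞 E₂) x ∈ Q₁ := hQ₁le hx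
    rw [← hPcomap] at this
    exact this
  have hunder : primeUnder (K := F) 𝔓 = Q := by
    apply HeightOneSpectrum.ext
    rw [primeUnder_asIdeal]
    have hmax : Q.asIdeal.IsMaximal := Q.isMaximal
    have hne : P.comap (algebraMap (𝓞 F) (𝓞 L)) ≠ ⊤ := (Ideal.comap_isPrime _ P).ne_top
    exact (hmax.eq_of_le hne (fun x hx => hQP x hx)).symm
  have h𝔓B₁ : 𝔓 ∉ B₁ := fun h => hQB (Or.inl ⟨𝔓, h, hunder⟩)
  have hℓS : (⟨ℓ, Fact.out⟩ : Nat.Primes) ∉ S := by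
    intro hS
    apply hQB
    refine Or.inr (Set.mem_iUnion₂.mpr ⟨⟨ℓ, Fact.out⟩, hS, ?_⟩)
    exact Ideal.absNorm_mem Q.asIdeal
  have hℓP : ((ℓ : ℕ) : 𝓞 L) ∈ 𝔓.asIdeal := by
    have := hQP _ (Ideal.absNorm_mem Q.asIdeal)
    rwa [map_natCast] at this
  obtain ⟨g, hg⟩ := exists_primeAt_eq (q := ℓ) (L := L) 𝔓 hℓP
  set φ : GalL L := g⁻¹ * frobL ℓ L * g with hφ
  have hfrob : ∀ y : 𝓞 L, galRestrict ℤ ℚ L (𝓞 L) φ y - y ^ ℓ ∈ P := by
    intro y
    have := galRestrict_conj_frobL_sub_pow_mem ℓ L g y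
    rw [hg] at this
    exact this
  -- the residue field of `Q` has `ℓ` elements
  have hcardQ : Nat.card (𝓞 F ⧸ Q.asIdeal) = ℓ := by
    rw [hℓ, Ideal.absNorm_apply, Submodule.cardQuot_apply]
  have hpowQ : ∀ x : 𝓞 F, x ^ ℓ - x ∈ Q.asIdeal := by
    intro x
    haveI : Finite (𝓞 F ⧸ Q.asIdeal) :=
      Nat.finite_of_card_ne_zero (by rw [hcardQ]; exact hQprime.ne_zero)
    letI : Fintype (𝓞 F ⧸ Q.asIdeal) := Fintype.ofFinite _
    haveI : Q.asIdeal.IsMaximal := Q.isMaximal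
    letI := Ideal.Quotient.field Q.asIdeal
    have hc : Fintype.card (𝓞 F ⧸ Q.asIdeal) = ℓ := by
      rw [← Nat.card_eq_fintype_card, hcardQ]
    rw [← Ideal.Quotient.eq_zero_iff_mem, map_sub, map_pow, sub_eq_zero, ← hc]
    exact FiniteField.pow_card _
  refine ⟨ℓ, hℓF, g, hℓS, ?_, ?_⟩
  · -- `φ ∈ H`
    refine hB₁ 𝔓 h𝔓B₁ φ fun x => ?_
    have e2 := P.add_mem (hfrob (algebraMap (𝓞 F) (𝓞 L) x)) (hQP _ (hpowQ x))
    rw [map_sub, map_pow, sub_add_sub_cancel] at e2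
    exact e2
  · -- `φ ∉ H₁`
    intro hφH₁
    -- `φ` fixes `E₂` pointwise
    have hfixE : ∀ x : L, x ∈ E₂ → φ x = x := by
      intro x hx
      have hmem : e ⟨φ, h1 hφH₁⟩ ∈ N :=
        ⟨⟨φ, h1 hφH₁⟩, Subgroup.mem_subgroupOf.mpr hφH₁, rfl⟩
      have := (IntermediateField.mem_fixedField_iff N x).mp hx _ hmem
      exact this
    have hpowQ₁ : ∀ y : 𝓞 E₂, y ^ ℓ - y ∈ Q₁ := by
      intro y
      rw [← hPcomap, Ideal.mem_comap]
      have h3 : galRestrict ℤ ℚ L (𝓞 L) φ (algebraMap (𝓞 E₂) (𝓞 L) y) =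
          algebraMap (𝓞 E₂) (𝓞 L) y := by
        apply FaithfulSMul.algebraMap_injective (𝓞 L) L
        rw [algebraMap_galRestrict_apply]
        exact hfixE _ (y : E₂).2
      have h4 := hfrob (algebraMap (𝓞 E₂) (𝓞 L) y)
      rw [h3] at h4
      have h5 := P.neg_mem h4
      rw [neg_sub] at h5
      rw [map_sub, map_pow]
      exact h5
    haveI hQ₁max : Q₁.IsMaximal := Ideal.IsPrime.isMaximal inferInstance hQ₁ne
    haveI : Finite (𝓞 E₂ ⧸ Q₁) := Ideal.finiteQuotientOfFreeOfNeBot Q₁ hQ₁ne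
    have hle := card_quot_le_of_forall_pow_sub_mem Q₁ ℓ hQprime.one_lt hpowQ₁
    have hcard : Nat.card (𝓞 E₂ ⧸ Q₁) = ℓ ^ p := by
      have h6 : Ideal.absNorm Q₁ = ℓ ^ Module.finrank (𝓞 F) (𝓞 E₂) :=
        Ideal.absNorm_algebraMap (𝓞 F) (𝓞 E₂) Q.asIdeal
      rw [← IsFractionRing.finrank_eq (𝓞 F) F (𝓞 E₂) E₂, hdeg] at h6
      rw [← h6, Ideal.absNorm_apply, Submodule.cardQuot_apply]
    rw [hcard] at hle
    have h2 : 2 ≤ p := hp.out.two_le
    have hl2 : 2 ≤ ℓ := hQprime.two_le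
    have : ℓ ^ 2 ≤ ℓ ^ p := Nat.pow_le_pow_right (by omega) h2
    nlinarith

/-- **Place of full local degree, subgroup form.**  `H₁ ≤ H ≤ Gal(L/ℚ)`, `H₁` normal of index `p`
in `H`, `S` any finite set of rational primes: there are a prime `ℓ ∉ S` and `x ∈ Gal(L/ℚ)` such that
the Frobenius `x⁻¹ * frobL ℓ L * x` at the place `x` lies in `H` (the place of `K = L^H` below `x` has
degree one over `ℓ`) but not in `H₁` (it is inert in `L^{H₁}`). -/
theorem exists_frob_conj_mem_diff (S : Finset Nat.Primes) (H H₁ : Subgroup (GalL L)) (h1 : H₁ ≤ H)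
    (hn : (H₁.subgroupOf H).Normal) (hidx : H₁.relIndex H = p) :
    ∃ (ℓ : ℕ) (_ : Fact ℓ.Prime) (x : GalL L), (⟨ℓ, Fact.out⟩ : Nat.Primes) ∉ S ∧
      x⁻¹ * frobL ℓ L * x ∈ H ∧ x⁻¹ * frobL ℓ L * x ∉ H₁ := by
  obtain ⟨F, rfl⟩ : ∃ F : IntermediateField ℚ L, F.fixingSubgroup = H :=
    ⟨_, IntermediateField.fixingSubgroup_fixedField H⟩
  exact exists_frob_conj_aux p L F H₁ h1 hn hidx S

/-- The same with the other conjugation convention. -/
theorem exists_frob_conj_mem_diff' (S : Finset Nat.Primes) (H H₁ : Subgroup (GalL L)) (h1 : H₁ ≤ H)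
    (hn : (H₁.subgroupOf H).Normal) (hidx : H₁.relIndex H = p) :
    ∃ (ℓ : ℕ) (_ : Fact ℓ.Prime) (x : GalL L), (⟨ℓ, Fact.out⟩ : Nat.Primes) ∉ S ∧
      x * frobL ℓ L * x⁻¹ ∈ H ∧ x * frobL ℓ L * x⁻¹ ∉ H₁ := by
  obtain ⟨ℓ, hℓ, x, hS, hx, hx'⟩ := exists_frob_conj_mem_diff p L S H H₁ h1 hn hidx
  refine ⟨ℓ, hℓ, x⁻¹, hS, ?_, ?_⟩
  · rwa [inv_inv]
  · rwa [inv_inv]

/-- **Place of full local degree, character form.**  For a surjective character
`χ : H → ℤ/p^e` (`e ≠ 0`) there are `ℓ ∉ S` and a place `x` of degree one of `L^H` above `ℓ` whose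
Frobenius `x⁻¹ * frobL ℓ L * x ∈ H` has `χ`-value a UNIT of `ℤ/p^e`: it generates `H ⧸ ker χ`. -/
theorem exists_frob_conj_isUnit (S : Finset Nat.Primes) (H : Subgroup (GalL L)) {e : ℕ} (he : e ≠ 0)
    (χ : H →* Multiplicative (ZMod (p ^ e))) (hχ : Function.Surjective χ) :
    ∃ (ℓ : ℕ) (_ : Fact ℓ.Prime) (x : GalL L), (⟨ℓ, Fact.out⟩ : Nat.Primes) ∉ S ∧
      ∃ hx : x⁻¹ * frobL ℓ L * x ∈ H, IsUnit (Multiplicative.toAdd (χ ⟨_, hx⟩)) := by
  classical
  -- reduction modulo `p`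
  set r : ZMod (p ^ e) →+* ZMod p := ZMod.castHom (dvd_pow_self p he) (ZMod p) with hr
  set ψ : H →* Multiplicative (ZMod p) :=
    (AddMonoidHom.toMultiplicative r.toAddMonoidHom).comp χ with hψ
  have hψs : Function.Surjective ψ := by
    intro z
    obtain ⟨a, ha⟩ := ZMod.ringHom_surjective r (Multiplicative.toAdd z)
    obtain ⟨h, hh⟩ := hχ (Multiplicative.ofAdd a)
    refine ⟨h, ?_⟩
    rw [hψ, MonoidHom.comp_apply, hh]
    exact congrArg Multiplicative.ofAdd ha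
  set H₁ : Subgroup (GalL L) := ψ.ker.map H.subtype with hH₁
  have h1 : H₁ ≤ H := by
    rintro _ ⟨h, -, rfl⟩
    exact h.2
  have hsub : H₁.subgroupOf H = ψ.ker := by
    ext h
    rw [Subgroup.mem_subgroupOf, hH₁, Subgroup.mem_map]
    constructor
    · rintro ⟨h', hh', e'⟩
      have : h' = h := Subtype.ext e'
      rwa [← this]
    · intro hh
      exact ⟨h, hh, rfl⟩
  have hn : (H₁.subgroupOf H).Normal := by
    rw [hsub]
    infer_instance
  have hidx : H₁.relIndex H = p := by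
    change (H₁.subgroupOf H).index = p
    rw [hsub, Subgroup.index_ker, MonoidHom.range_eq_top.mpr hψs]
    rw [Nat.card_congr (Subgroup.topEquiv (G := Multiplicative (ZMod p))).toEquiv]
    rw [Nat.card_congr Multiplicative.toAdd, Nat.card_eq_fintype_card, ZMod.card]
  obtain ⟨ℓ, hℓ, x, hS, hx, hx'⟩ := exists_frob_conj_mem_diff p L S H H₁ h1 hn hidx
  refine ⟨ℓ, hℓ, x, hS, hx, ?_⟩
  set a : ZMod (p ^ e) := Multiplicative.toAdd (χ ⟨_, hx⟩) with ha
  -- `r a ≠ 0`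
  have hra : r a ≠ 0 := by
    intro h0
    apply hx'
    refine ⟨⟨_, hx⟩, ?_, rfl⟩
    change ψ ⟨_, hx⟩ = 1
    rw [hψ, MonoidHom.comp_apply]
    exact congrArg Multiplicative.ofAdd h0
  haveI : NeZero (p ^ e) := ⟨pow_ne_zero _ hp.out.ne_zero⟩
  have hav : a = ((a.val : ℕ) : ZMod (p ^ e)) := (ZMod.natCast_zmod_val a).symm
  rw [hav, ZMod.isUnit_iff_coprime]
  apply Nat.Coprime.pow_right
  rw [Nat.coprime_comm, Nat.Prime.coprime_iff_not_dvd hp.out]
  intro hdvd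
  apply hra
  rw [hav, map_natCast]
  exact (ZMod.natCast_eq_zero_iff _ _).mpr hdvd

end Main

end Fermat.Agent.S55.FullDeg6
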