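/-
S55 / leaf 35f-FULLDEG-PLACE (helper6), part 3: the ℤ-layer idele of a degree-one place.

`ψ : Γ' →* Γ` with cyclic range `⟨d⟩` (`ψ = locHom ℓ L`, `d = frobL ℓ L` for `ℓ` unramified),
`H ≤ Γ`, `x : Γ` with `x⁻¹ * d * x ∈ H` (the place `x` of `L^H` has degree one).  The indicator
function of the coset `x H` is an `H`-invariant element `a` of `Coind_ψ ℤ` (= `IdeleVal44.Zq`,
`IdeleCoh54.UnrSum.coindInt ψ`) with `∑_{ξ ∈ Γ/H} a (out ξ) = 1`: this is the factor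
`∑ ξ, ev_ξ a` of `IdeleCoh54.UnrSum.unrSum_carryH`.  Combined with `exists_frob_conj_isUnit` it gives
the idele of full local degree.
-/
import Mathlib
import Fermat.Agent.S55.FullDeg6.Main

set_option autoImplicit false

open Fermat.Agent.S55.Idele73.Basic Fermat.Agent.S55.FrobFin98

namespace Fermat.Agent.S55.FullDeg6

section Abstract

variable {Γ : Type} [Group Γ] {Γ' : Type*} [Group Γ'] (ψ : Γ' →* Γ)

/-- the indicator function of the coset `x H`. -/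
noncomputable def cosetInd (H : Subgroup Γ) (x : Γ) : Γ → ℤ :=
  fun γ => by classical exact if x⁻¹ * γ ∈ H then 1 else 0

theorem cosetInd_apply (H : Subgroup Γ) (x γ : Γ) [Decidable (x⁻¹ * γ ∈ H)] :
    cosetInd H x γ = if x⁻¹ * γ ∈ H then 1 else 0 := by
  unfold cosetInd
  congr

theorem cosetInd_of_mem {H : Subgroup Γ} {x γ : Γ} (h : x⁻¹ * γ ∈ H) : cosetInd H x γ = 1 := by
  classical
  rw [cosetInd_apply, if_pos h]

theorem cosetInd_of_notMem {H : Subgroup Γ} {x γ : Γ} (h : x⁻¹ * γ ∉ H) : cosetInd H x γ = 0 := by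
  classical
  rw [cosetInd_apply, if_neg h]

theorem cosetInd_mul_right (H : Subgroup Γ) (x γ : Γ) {h : Γ} (hh : h ∈ H) :
    cosetInd H x (γ * h) = cosetInd H x γ := by
  classical
  rw [cosetInd_apply, cosetInd_apply, ← mul_assoc]
  congr 1
  exact propext (Subgroup.mul_mem_cancel_right H hh)

/-- left invariance under the range of `ψ`, when it is generated by `d` with `x⁻¹ d x ∈ H`. -/
theorem cosetInd_map_mul (H : Subgroup Γ) (x d : Γ) (hd : ψ.range ≤ Subgroup.zpowers d)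
    (hx : x⁻¹ * d * x ∈ H) (τ : Γ') (γ : Γ) : cosetInd H x (ψ τ * γ) = cosetInd H x γ := by
  classical
  obtain ⟨i, hi⟩ := Subgroup.mem_zpowers_iff.mp (hd ⟨τ, rfl⟩)
  have h1 : x⁻¹ * ψ τ * x ∈ H := by
    have : x⁻¹ * ψ τ * x = (x⁻¹ * d * x) ^ i := by
      rw [← hi]
      have := map_zpow (MulAut.conj x⁻¹) d i
      simpa [MulAut.conj_apply, mul_assoc] using this
    rw [this]
    exact H.zpow_mem hx i
  have h2 : x⁻¹ * (ψ τ * γ) = (x⁻¹ * ψ τ * x) * (x⁻¹ * γ) := by group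
  rw [cosetInd_apply, cosetInd_apply, h2]
  congr 1
  exact propext (Subgroup.mul_mem_cancel_left H h1)

/-- the indicator of `x H` as an element of `Coind_ψ ℤ`. -/
noncomputable def cosetIndCoind (H : Subgroup Γ) (x d : Γ) (hd : ψ.range ≤ Subgroup.zpowers d)
    (hx : x⁻¹ * d * x ∈ H) : Rep.coind ψ (Rep.trivial ℤ Γ' ℤ) :=
  ⟨cosetInd H x, fun τ γ => cosetInd_map_mul ψ H x d hd hx τ γ⟩

@[simp] theorem cosetIndCoind_val (H : Subgroup Γ) (x d : Γ) (hd : ψ.range ≤ Subgroup.zpowers d)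
    (hx : x⁻¹ * d * x ∈ H) (γ : Γ) : (cosetIndCoind ψ H x d hd hx).1 γ = cosetInd H x γ := rfl

/-- it is `H`-invariant. -/
theorem rho_cosetIndCoind (H : Subgroup Γ) (x d : Γ) (hd : ψ.range ≤ Subgroup.zpowers d)
    (hx : x⁻¹ * d * x ∈ H) {h : Γ} (hh : h ∈ H) :
    (Rep.coind ψ (Rep.trivial ℤ Γ' ℤ)).ρ h (cosetIndCoind ψ H x d hd hx) =
      cosetIndCoind ψ H x d hd hx := by
  apply Subtype.ext
  funext γ
  exact cosetInd_mul_right H x γ hh

/-- **the sum of its values over `Γ ⧸ H` is `1`** (the place has residue degree one). -/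
theorem sum_cosetInd_out (H : Subgroup Γ) (x : Γ) [Fintype (Γ ⧸ H)] :
    ∑ ξ : Γ ⧸ H, cosetInd H x (Quotient.out ξ) = 1 := by
  classical
  have h1 : ∀ ξ : Γ ⧸ H, cosetInd H x (Quotient.out ξ) = if ξ = (x : Γ ⧸ H) then 1 else 0 := by
    intro ξ
    rw [cosetInd_apply]
    congr 1
    apply propext
    rw [← QuotientGroup.eq, QuotientGroup.out_eq']
    exact eq_comm
  rw [Finset.sum_congr rfl (fun ξ _ => h1 ξ), Finset.sum_ite_eq' Finset.univ (x : Γ ⧸ H)]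
  simp

end Abstract

section Concrete

variable (p : ℕ) [hp : Fact p.Prime] (L : IntermediateField ℚ Qbar) [FiniteDimensional ℚ L]
  [Normal ℚ L]

/-- The other conjugation convention of `exists_frob_conj_isUnit`. -/
theorem exists_frob_conj_isUnit' (S : Finset Nat.Primes) (H : Subgroup (GalL L)) {e : ℕ}
    (he : e ≠ 0) (χ : H →* Multiplicative (ZMod (p ^ e))) (hχ : Function.Surjective χ) :
    ∃ (ℓ : ℕ) (_ : Fact ℓ.Prime) (x : GalL L), (⟨ℓ, Fact.out⟩ : Nat.Primes) ∉ S ∧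
      ∃ hx : x * frobL ℓ L * x⁻¹ ∈ H, IsUnit (Multiplicative.toAdd (χ ⟨_, hx⟩)) := by
  obtain ⟨ℓ, hℓ, x, hS, hx, hu⟩ := exists_frob_conj_isUnit p L S H he χ hχ
  refine ⟨ℓ, hℓ, x⁻¹, hS, by rwa [inv_inv], ?_⟩
  convert hu using 4
  rw [inv_inv]

/-- **The idele of full local degree (ℤ-layer form).**  For a surjective `χ : H → ℤ/p^e`, `e ≠ 0`, and
any finite set `S` of primes: there are `ℓ ∉ S`, a place `x` with Frobenius
`x⁻¹ * frobL ℓ L * x ∈ H` of unit `χ`-value, and — whenever the decomposition group at `ℓ` is generated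
by `frobL ℓ L` (`FrobFin98.range_locHom_eq_zpowers`, i.e. `ℓ` unramified in `L`) — an `H`-invariant
element `a` of `Coind_{locHom ℓ L} ℤ` (`= IdeleVal44.Zq L ℓ`), the indicator of the coset `x H`,
with `∑_{ξ ∈ Gal(L/ℚ)/H} a (out ξ) = 1`. -/
theorem exists_fullDeg_idele (S : Finset Nat.Primes) (H : Subgroup (GalL L)) {e : ℕ} (he : e ≠ 0)
    (χ : H →* Multiplicative (ZMod (p ^ e))) (hχ : Function.Surjective χ)
    [Fintype (GalL L ⧸ H)] :
    ∃ (ℓ : ℕ) (_ : Fact ℓ.Prime) (x : GalL L), (⟨ℓ, Fact.out⟩ : Nat.Primes) ∉ S ∧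
      ∃ hx : x⁻¹ * frobL ℓ L * x ∈ H, IsUnit (Multiplicative.toAdd (χ ⟨_, hx⟩)) ∧
        ∀ _hd : (locHom ℓ L).range ≤ Subgroup.zpowers (frobL ℓ L),
          ∃ a : Rep.coind (locHom ℓ L) (Rep.trivial ℤ (Gq ℓ) ℤ),
            (∀ h ∈ H, (Rep.coind (locHom ℓ L) (Rep.trivial ℤ (Gq ℓ) ℤ)).ρ h a = a) ∧
            (∀ γ, a.1 γ = cosetInd H x γ) ∧
            ∑ ξ : GalL L ⧸ H, a.1 (Quotient.out ξ) = 1 := by
  obtain ⟨ℓ, hℓ, x, hS, hx, hu⟩ := exists_frob_conj_isUnit p L S H he χ hχ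
  refine ⟨ℓ, hℓ, x, hS, hx, hu, fun hd => ?_⟩
  refine ⟨cosetIndCoind (locHom ℓ L) H x (frobL ℓ L) hd hx, fun h hh => ?_, fun γ => rfl, ?_⟩
  · exact rho_cosetIndCoind (locHom ℓ L) H x (frobL ℓ L) hd hx hh
  · simp only [cosetIndCoind_val]
    exact sum_cosetInd_out H x

end Concrete

end Fermat.Agent.S55.FullDeg6
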