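/-
S55 / leaf 35f-FULLDEG-PLACE (helper6), part 4: the ORDER computation of the full-degree class.

The invariant of the carry class of the tower character at the degree-one place of
`FullDeg6.exists_frob_conj_isUnit` is `χ_{j+m}(Frob) / p^(j+m) ∈ ℚ/ℤ` with
`χ_{j+m}(Frob) = p^j · u`, `u` a unit mod `p^m` (`CycloGlobal87.val_towerCharMulL_eq`).
Its order is exactly `p^m`: this file.

* `addOrderOf_frac`            : the order of `a/n` in `ℚ/ℤ` is `n / gcd(a, n)`;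
* `addOrderOf_frac_pow_mul`    : the order of `p^j u / (p^j p^m)` is `p^m` for `p ∤ u`;
* `addOrderOf_fracHom_of_val`  : the same for `IdeleCoh54.UnrSum.fracHom θ hθ n c`,
  `n = p^j * p^m`, `c.val = p^j * u.val`, `u` a unit of `ZMod (p^m)`, `θ` the projection `ℚ → ℚ/ℤ`.
-/
import Mathlib
import Fermat.Agent.S55.QZ33
import Fermat.Agent.S55.IdeleCoh54.UnrSum

set_option autoImplicit false

namespace Fermat.Agent.S55.FullDeg6

open Fermat.Agent.S55 Fermat.Agent.S55.IdeleCoh54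

/-- **the order of `a/n` in `ℚ/ℤ`** is `n / gcd(a, n)`. -/
theorem addOrderOf_frac (a : ℤ) {n : ℕ} (hn : n ≠ 0) :
    addOrderOf (QZ33.QZ.frac a n) = n / Int.gcd a n := by
  set g := Int.gcd a n with hg
  have hgpos : 0 < g := Int.gcd_pos_of_ne_zero_right _ (by exact_mod_cast hn)
  have hgn : g ∣ n := by
    have : (g : ℤ) ∣ (n : ℤ) := Int.gcd_dvd_right a n
    exact_mod_cast this
  have hga : (g : ℤ) ∣ a := Int.gcd_dvd_left a n
  obtain ⟨n', hn'⟩ := hgn
  obtain ⟨a', ha'⟩ := hga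
  have hn'0 : n' ≠ 0 := by
    rintro rfl
    exact hn (by rw [hn', mul_zero])
  have hcop : IsCoprime a' (n' : ℤ) := by
    have h1 : Int.gcd a n = g * Int.gcd a' n' := by
      rw [ha', hn', Nat.cast_mul, Int.gcd_mul_left]
      simp
    have h2 : Int.gcd a' n' = 1 := by
      have : g * Int.gcd a' n' = g * 1 := by rw [mul_one, ← h1]
      exact Nat.eq_of_mul_eq_mul_left hgpos this
    exact Int.isCoprime_iff_gcd_eq_one.mpr h2
  have hdiv : n / g = n' := by rw [hn', Nat.mul_div_cancel_left _ hgpos]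
  rw [hdiv]
  rw [addOrderOf_eq_iff (Nat.pos_of_ne_zero hn'0)]
  have key : ∀ l : ℕ, l • QZ33.QZ.frac a n = 0 ↔ n' ∣ l := by
    intro l
    rw [QZ33.QZ.nsmul_frac, QZ33.QZ.frac_eq_zero_iff _ hn, ha', hn']
    push_cast
    constructor
    · intro h
      have h1 : (g : ℤ) * (n' : ℤ) ∣ (g : ℤ) * ((l : ℤ) * a') := by
        convert h using 1; ring
      have h2 : (n' : ℤ) ∣ (l : ℤ) * a' :=
        (mul_dvd_mul_iff_left (by exact_mod_cast hgpos.ne')).mp h1
      have h3 : (n' : ℤ) ∣ (l : ℤ) := hcop.symm.dvd_of_dvd_mul_right h2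
      exact_mod_cast h3
    · rintro ⟨t, rfl⟩
      exact ⟨(t : ℤ) * a', by push_cast; ring⟩
  refine ⟨(key n').mpr dvd_rfl, fun l hl hl0 h0 => ?_⟩
  exact absurd (Nat.le_of_dvd hl0 ((key l).mp h0)) (not_le.mpr hl)

/-- the order of `p^j u / (p^j p^m)` in `ℚ/ℤ` is `p^m` for `p ∤ u`. -/
theorem addOrderOf_frac_pow_mul {p : ℕ} (hp : p.Prime) (j m u : ℕ) (hu : m ≠ 0 → ¬ p ∣ u) :
    addOrderOf (QZ33.QZ.frac ((p ^ j * u : ℕ) : ℤ) (p ^ j * p ^ m)) = p ^ m := by
  have hpj : 0 < p ^ j := pow_pos hp.pos j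
  have hpm : 0 < p ^ m := pow_pos hp.pos m
  rw [addOrderOf_frac _ (Nat.mul_ne_zero hpj.ne' hpm.ne')]
  have hg : Int.gcd ((p ^ j * u : ℕ) : ℤ) ((p ^ j * p ^ m : ℕ) : ℤ) = p ^ j := by
    rw [Int.gcd_natCast_natCast, Nat.gcd_mul_left]
    have : Nat.gcd u (p ^ m) = 1 := by
      rcases Nat.eq_zero_or_pos m with rfl | hm
      · simp
      · exact Nat.Coprime.pow_right m
          ((Nat.coprime_comm.mp ((Nat.Prime.coprime_iff_not_dvd hp).mpr (hu hm.ne'))))
    rw [this, mul_one]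
  rw [hg, Nat.mul_div_cancel_left _ hpj]

variable {p : ℕ} [hp : Fact p.Prime]

/-- **the order of the full-degree invariant**: for `θ : ℚ → ℚ/ℤ` the projection, `n = p^j * p^m`,
`c : ZMod n` with `c.val = p^j * u.val`, `u` a unit of `ZMod (p^m)`:
`fracHom θ hθ n c = c.val / n` has order exactly `p^m`. -/
theorem addOrderOf_fracHom_of_val {θ : ℚ →+ QZ33.QZ} (hθ : θ 1 = 0)
    (hθc : ∀ x : ℚ, θ x = ((x : ℚ) : QZ33.QZ)) {n : ℕ} [NeZero n] (j m : ℕ)
    (hn : n = p ^ j * p ^ m) (c : ZMod n) (u : ZMod (p ^ m)) (hu : IsUnit u)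
    (hc : c.val = p ^ j * u.val) :
    addOrderOf (UnrSum.fracHom θ hθ n c) = p ^ m := by
  have h1 : UnrSum.fracHom θ hθ n c = QZ33.QZ.frac ((p ^ j * u.val : ℕ) : ℤ) (p ^ j * p ^ m) := by
    rw [UnrSum.fracHom_apply, hθc, QZ33.QZ.frac_def, hc, hn]
    push_cast
    rfl
  rw [h1]
  apply addOrderOf_frac_pow_mul hp.out
  intro hm hdvd
  have hcop : Nat.Coprime u.val (p ^ m) := by
    have := (ZMod.isUnit_iff_coprime u.val (p ^ m)).mp (by rwa [ZMod.natCast_zmod_val])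
    exact this
  have : p ∣ Nat.gcd u.val (p ^ m) := Nat.dvd_gcd hdvd (dvd_pow_self p hm)
  rw [hcop] at this
  exact hp.out.one_lt.ne' (Nat.dvd_one.mp this)

end Fermat.Agent.S55.FullDeg6
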