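/-
S55 / leaf 35f-FULLDEG-PLACE (helper6), part 5: **the class of full local degree, `GSys` form**.

`L/ℚ` a finite Galois level unramified outside `S`, `H ≤ Gal(L/ℚ)` (`K = L^H`),
`χ : Gal(L/ℚ) → ℤ/n`, `n = p^j * p^m`, a GLOBAL character whose restriction to `H` is
`p^j ·` an ONTO character `χK : H → ℤ/p^m` (`χ = towerCharL … (j + m)`, `χK = towerCharK`,
helper87's `val_towerCharMulL_eq`).  Then there is an `H`-invariant element `z` of the ideal
part `I^S(L)` (helper44's `IdeleVal44.IS L S`) — the prime of `K` of degree one above some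
`ℓ ∉ S` given by `FullDeg6.exists_frob_conj_isUnit` — such that the sum of the unramified
invariants (helper54's `IdealSys.idealSys`) of the carry cochain `δχ ∪ z` over `H` has order
EXACTLY `p^m` in `ℚ/ℤ`.  This is the arithmetic content of the field `fullDeg` of
`GlobalInv91.TowerLayerHyp`.
-/
import Mathlib
import Fermat.Agent.S55.FullDeg6.Indicator
import Fermat.Agent.S55.FullDeg6.Order
import Fermat.Agent.S55.IdeleCoh54.IdealSys
import Fermat.Agent.S55.FrobFin98.Cyclic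
import Fermat.Agent.S55.CycloGlobal87.OverK

set_option autoImplicit false
set_option linter.unusedSectionVars false

namespace Fermat.Agent.S55.FullDeg6

open Fermat.Agent.S55 Fermat.Agent.S55.Idele73.Basic Fermat.Agent.S55.FrobFin98
  Fermat.Agent.S55.IdeleVal44 Fermat.Agent.S55.IdeleCoh54 Fermat.Agent.S55.IdeleCoh54.IdealSys
  Fermat.Agent.S55.IdeleCoh54.UnrSum Fermat.Agent.S55.GlobalInv91

open scoped DirectSum

attribute [local instance] factPrimes44 fintypeGalL

variable (p : ℕ) [hp : Fact p.Prime] (L : IntermediateField ℚ Qbar) [FiniteDimensional ℚ L]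
  [Normal ℚ L] (S : Finset Nat.Primes)

/-- the element of the ideal part `I^S(L)` supported at `ℓ ∉ S` with component `a`. -/
noncomputable def idealSingle (ℓ : OutS S) (a : Zq L ℓ.1.1) : IS L S :=
  dsRep.ofDS (fun ℓ : OutS S => Zq L ℓ.1.1)
    (DirectSum.of (fun ℓ : OutS S => (Zq L ℓ.1.1 : Type)) ℓ a)

theorem toDS_idealSingle_same (ℓ : OutS S) (a : Zq L ℓ.1.1) :
    dsRep.toDS _ (idealSingle L S ℓ a) ℓ = a := by
  classical
  exact DirectSum.of_eq_same (β := fun ℓ : OutS S => (Zq L ℓ.1.1 : Type)) ℓ a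

theorem toDS_idealSingle_of_ne (ℓ : OutS S) (a : Zq L ℓ.1.1) {ℓ' : OutS S} (h : ℓ' ≠ ℓ) :
    dsRep.toDS _ (idealSingle L S ℓ a) ℓ' = 0 := by
  classical
  exact DirectSum.of_eq_of_ne (β := fun ℓ : OutS S => (Zq L ℓ.1.1 : Type)) ℓ ℓ' a h

theorem rho_idealSingle (ℓ : OutS S) (a : Zq L ℓ.1.1) (g : GalL L) :
    (IS L S).ρ g (idealSingle L S ℓ a) = idealSingle L S ℓ ((Zq L ℓ.1.1).ρ g a) := by
  apply dsRep.ext
  intro ℓ'
  rw [dsRep.ρ_apply]
  by_cases h : ℓ' = ℓ
  · subst h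
    rw [toDS_idealSingle_same, toDS_idealSingle_same]
  · rw [toDS_idealSingle_of_ne L S ℓ a h, toDS_idealSingle_of_ne L S ℓ _ h, map_zero]

variable {T : Type*} [AddCommGroup T] (θ : ℚ →+ T) (hθ : θ 1 = 0)

open Classical in
/-- the unramified formula at an element supported at a single prime `ℓ ∉ S`. -/
theorem idealSys_carry_idealSingle {n : ℕ} [NeZero n] (χ : GalL L →* Multiplicative (ZMod n))
    (H : Subgroup (GalL L)) (ℓ : OutS S) (a : Zq L ℓ.1.1)
    (ha : ∀ h ∈ H, (Zq L ℓ.1.1).ρ h a = a) :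
    (idealSys L S θ hθ).S H (carry (IS L S) χ (idealSingle L S ℓ a)) =
      (∑ ξ : GalL L ⧸ H, a.1 (Quotient.out ξ)) •
        fracHom θ hθ n (chiVal χ (frobL ℓ.1.1 L)) := by
  have hz : ∀ h ∈ H, (IS L S).ρ h (idealSingle L S ℓ a) = idealSingle L S ℓ a := by
    intro h hh
    rw [rho_idealSingle, ha h hh]
  rw [idealSys_carry L S θ hθ χ H _ hz]
  rw [finsum_eq_single _ ℓ]
  · rw [toDS_idealSingle_same]
  · intro ℓ' hℓ'
    rw [toDS_idealSingle_of_ne L S ℓ a hℓ']
    have : ∀ ξ : GalL L ⧸ H, (0 : Zq L ℓ'.1.1).1 (Quotient.out ξ) = 0 := fun _ => rfl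
    rw [Finset.sum_congr rfl (fun ξ _ => this ξ), Finset.sum_const_zero, zero_smul]

/-- **The class of full local degree, `GSys` form.** -/
theorem exists_idealSys_carry_addOrderOf (hL : L.IsUnramifiedOutside S) (θ : ℚ →+ QZ33.QZ)
    (hθ : θ 1 = 0) (hθc : ∀ x : ℚ, θ x = ((x : ℚ) : QZ33.QZ)) (H : Subgroup (GalL L))
    {n : ℕ} [NeZero n] (j m : ℕ) (hn : n = p ^ j * p ^ m) (hm : m ≠ 0)
    (χ : GalL L →* Multiplicative (ZMod n)) (χK : H →* Multiplicative (ZMod (p ^ m)))
    (hχK : Function.Surjective χK)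
    (hval : ∀ g : H, (chiVal χ (g : GalL L)).val = p ^ j * (chiVal χK g).val) :
    ∃ z : IS L S, (∀ h ∈ H, (IS L S).ρ h z = z) ∧
      addOrderOf ((idealSys L S θ hθ).S H (carry (IS L S) χ z)) = p ^ m := by
  classical
  obtain ⟨ℓ, hℓ, x, hS, hx, hu⟩ := exists_frob_conj_isUnit p L S H hm χK hχK
  have hunr : FrobFin98.IsUnrAt ℓ L := isUnrAt_of_isUnramifiedOutside ℓ L hL hS
  have hd : (locHom ℓ L).range ≤ Subgroup.zpowers (frobL ℓ L) :=
    (range_locHom_eq_zpowers hunr).le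
  set ℓ' : OutS S := ⟨⟨ℓ, Fact.out⟩, hS⟩ with hℓ'
  let a : Zq L ℓ'.1.1 := cosetIndCoind (locHom ℓ L) H x (frobL ℓ L) hd hx
  have ha : ∀ h ∈ H, (Zq L ℓ'.1.1).ρ h a = a := fun h hh =>
    rho_cosetIndCoind (locHom ℓ L) H x (frobL ℓ L) hd hx hh
  refine ⟨idealSingle L S ℓ' a, fun h hh => ?_, ?_⟩
  · rw [rho_idealSingle, ha h hh]
  · rw [idealSys_carry_idealSingle L S θ hθ χ H ℓ' a ha]
    have hsum : ∑ ξ : GalL L ⧸ H, a.1 (Quotient.out ξ) = 1 := sum_cosetInd_out H x
    rw [hsum, one_smul]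
    -- the value of `χ` at the Frobenius
    have hconj : chiVal χ (frobL ℓ L) = chiVal χ (x⁻¹ * frobL ℓ L * x) := by
      rw [chiVal_mul, chiVal_mul]
      have : chiVal χ x⁻¹ = - chiVal χ x := by
        have h0 := chiVal_mul χ x⁻¹ x
        rw [inv_mul_cancel, chiVal_one] at h0
        exact eq_neg_of_add_eq_zero_left h0.symm
      rw [this]; abel
    have hc : (chiVal χ (frobL ℓ'.1.1 L)).val =
        p ^ j * (chiVal χK ⟨x⁻¹ * frobL ℓ L * x, hx⟩).val := by
      change (chiVal χ (frobL ℓ L)).val = _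
      rw [hconj]
      exact hval ⟨x⁻¹ * frobL ℓ L * x, hx⟩
    exact addOrderOf_fracHom_of_val hθ hθc j m hn _ _ hu hc

/-! ### the tower instance -/

section Tower

open Fermat.Agent.S55.CycloGlobal87

variable (hp2 : p ≠ 2) (H : Subgroup (GalL L)) (j m : ℕ) (h : towerField p (j + m) ≤ L)
  (hj : ∀ g ∈ H, towerCharL p L hp2 j ((towerField_mono p (Nat.le_add_right j m)).trans h) g = 1)

include hj in
/-- **`fullDeg` for the cyclotomic tower over `K = L^H`, `GSys` form**: `K ∩ ℚ_∞ = ℚ_j`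
(`hj`, `hex`), `L ⊇ ℚ_{j+m}`, `m ≥ 1`.  There is an `H`-invariant `z ∈ I^S(L)` such that the sum of
the unramified invariants over `H` of the carry cochain of the GLOBAL tower character of level
`j + m` (the literal cochain of `CycloRecip37.TowerRecip.tower_reciprocity`, equal to the carry
cochain of the onto character `towerCharK` by `CycloGlobal87.carry_towerCharL_comp_subtype`)
has order exactly `p^m`. -/
theorem exists_idealSys_towerCharL_addOrderOf (hL : L.IsUnramifiedOutside S) (θ : ℚ →+ QZ33.QZ)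
    (hθ : θ 1 = 0) (hθc : ∀ x : ℚ, θ x = ((x : ℚ) : QZ33.QZ)) [NeZero (p ^ (j + m))] (hm : 1 ≤ m)
    (hex : ∃ g ∈ H, towerCharL p L hp2 (j + 1)
      ((towerField_mono p (Nat.add_le_add_left hm j)).trans h) g ≠ 1) :
    ∃ z : IS L S, (∀ g ∈ H, (IS L S).ρ g z = z) ∧
      addOrderOf ((idealSys L S θ hθ).S H
        (carry (IS L S) (towerCharL p L hp2 (j + m) h) z)) = p ^ m := by
  refine exists_idealSys_carry_addOrderOf p L S hL θ hθ hθc H j m (pow_add p j m)
    (Nat.one_le_iff_ne_zero.mp hm) (towerCharL p L hp2 (j + m) h)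
    (towerCharK p hp2 L H j m h hj) (towerCharK_surjective p hp2 L H j m h hj hm hex) ?_
  intro g
  rw [← val_chiVal_towerCharMulL p hp2 L j m h (g : GalL L)]
  exact val_towerCharMulL_eq p hp2 L H j m h hj g

end Tower

end Fermat.Agent.S55.FullDeg6
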