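/-
S55 / leaf 35f-FULLDEG-PLACE (helper6), part 6: **(Σ-full)** of helper91's report #2654 (3), the
PURE `Sys`-LEVEL form of the class of full local degree, for a total system on `J_S(L) × I^S(L)`:

  `∃ z : JIS L S, (∀ g ∈ N, ρ g z = z) ∧
     addOrderOf (Jtot.S N (carry (JIS L S) (towerCharL p L hp2 (j + m) h) z)) = p ^ m`

for every subgroup `N ≤ Gal(L/ℚ)` on which the tower character `towerCharK … N j m` is ONTO.
`z = (0, z₀)` with `z₀` the prime of degree one of `FullDeg6.exists_idealSys_carry_addOrderOf`.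

* `exists_sys_carry_addOrderOf`      : any total system `I` whose ideal part is `idealSys`
  (hypothesis `hI`, the binder of helper54's `IdeleCoh54.FullDeg.exists_fullDeg`);
* `exists_totalSysU_carry_addOrderOf` : `I := CycloRecip37.RecT.totalSysU hp2 L S` (helper37), literal.
-/
import Mathlib
import Fermat.Agent.S55.FullDeg6.IdealFull
import Fermat.Agent.S55.CycloRecip37.RecTSeam

set_option autoImplicit false
set_option linter.unusedSectionVars false

namespace Fermat.Agent.S55.FullDeg6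

open Fermat.Agent.S55 Fermat.Agent.S55.Idele73.Basic Fermat.Agent.S55.FrobFin98
  Fermat.Agent.S55.IdeleVal44 Fermat.Agent.S55.IdeleCoh54 Fermat.Agent.S55.IdeleCoh54.IdealSys
  Fermat.Agent.S55.IdeleCoh54.UnrSum Fermat.Agent.S55.GlobalInv91 Fermat.Agent.S55.CycloRecip37
  Fermat.Agent.S55.CycloGlobal87

attribute [local instance] factPrimes44
attribute [local instance 2000] Fermat.Agent.S55.IdeleCoh54.IdealSys.fintypeGalL

variable (p : ℕ) [hp : Fact p.Prime] (L : IntermediateField ℚ Qbar) [FiniteDimensional ℚ L]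
  [Normal ℚ L] (S : Finset Nat.Primes)

/-- **(Σ-full), general total system**: `χ` a GLOBAL character mod `n = p^j * p^m` whose restriction
to `N` is `p^j ·` an onto character `χK : N → ℤ/p^m`. -/
theorem exists_sys_carry_addOrderOf_of_val (hL : L.IsUnramifiedOutside S) (θ : ℚ →+ QZ33.QZ)
    (hθ : θ 1 = 0) (hθc : ∀ x : ℚ, θ x = ((x : ℚ) : QZ33.QZ)) (I : GSys.Sys (JIS L S) QZ33.QZ)
    (hI : ∀ (H' : Subgroup (GalL L)) (f : GalL L × GalL L → IS L S),
      (I.comap (prodRep.inr (JS L S) (IS L S))).S H' f = (idealSys L S θ hθ).S H' f)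
    (N : Subgroup (GalL L)) {n : ℕ} [NeZero n] (j m : ℕ) (hn : n = p ^ j * p ^ m) (hm : m ≠ 0)
    (χ : GalL L →* Multiplicative (ZMod n)) (χK : N →* Multiplicative (ZMod (p ^ m)))
    (hχK : Function.Surjective χK)
    (hval : ∀ g : N, (chiVal χ (g : GalL L)).val = p ^ j * (chiVal χK g).val) :
    ∃ z : JIS L S, (∀ g ∈ N, (JIS L S).ρ g z = z) ∧
      addOrderOf (I.S N (carry (JIS L S) χ z)) = p ^ m := by
  obtain ⟨z₀, hz₀, hord⟩ :=
    exists_idealSys_carry_addOrderOf p L S hL θ hθ hθc N j m hn hm χ χK hχK hval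
  refine ⟨(prodRep.inr (JS L S) (IS L S)).hom z₀, fun g hg => ?_, ?_⟩
  · rw [← Rep.hom_comm_apply, hz₀ g hg]
  · rw [← hord, ← hI N (carry (IS L S) χ z₀), GSys.Sys.comap_S]
    congr 2
    funext x
    simp only [carry, map_nsmul]

variable (hp2 : p ≠ 2)

/-- **(Σ-full), tower form** (helper91 #2654 (3), literal up to the name of the total system):
`N ≤ Gal(L/ℚ)`, `L ⊇ ℚ_{j+m}`, `N` fixes `ℚ_j`, `1 ≤ m`, `towerCharK … N j m` onto. -/
theorem exists_sys_carry_addOrderOf (hL : L.IsUnramifiedOutside S) (θ : ℚ →+ QZ33.QZ)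
    (hθ : θ 1 = 0) (hθc : ∀ x : ℚ, θ x = ((x : ℚ) : QZ33.QZ)) (I : GSys.Sys (JIS L S) QZ33.QZ)
    (hI : ∀ (H' : Subgroup (GalL L)) (f : GalL L × GalL L → IS L S),
      (I.comap (prodRep.inr (JS L S) (IS L S))).S H' f = (idealSys L S θ hθ).S H' f)
    (N : Subgroup (GalL L)) (j m : ℕ) (h : towerField p (j + m) ≤ L)
    (hj : ∀ g ∈ N,
      towerCharL p L hp2 j ((towerField_mono p (Nat.le_add_right j m)).trans h) g = 1)
    (hm : 1 ≤ m) (hsurj : Function.Surjective (towerCharK p hp2 L N j m h hj)) :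
    ∃ z : JIS L S, (∀ g ∈ N, (JIS L S).ρ g z = z) ∧
      addOrderOf (I.S N (carry (JIS L S) (towerCharL p L hp2 (j + m) h) z)) = p ^ m := by
  have : NeZero (p ^ (j + m)) := ⟨pow_ne_zero _ hp.out.ne_zero⟩
  refine exists_sys_carry_addOrderOf_of_val p L S hL θ hθ hθc I hI N j m (pow_add p j m)
    (Nat.one_le_iff_ne_zero.mp hm) (towerCharL p L hp2 (j + m) h)
    (towerCharK p hp2 L N j m h hj) hsurj ?_
  intro g
  rw [← val_chiVal_towerCharMulL p hp2 L j m h (g : GalL L)]
  exact val_towerCharMulL_eq p hp2 L N j m h hj g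

/-- **(Σ-full) for helper37's total system `totalSysU hp2 L S`**, literal. -/
theorem exists_totalSysU_carry_addOrderOf (hL : L.IsUnramifiedOutside S)
    (N : Subgroup (GalL L)) (j m : ℕ) (h : towerField p (j + m) ≤ L)
    (hj : ∀ g ∈ N,
      towerCharL p L hp2 j ((towerField_mono p (Nat.le_add_right j m)).trans h) g = 1)
    (hm : 1 ≤ m) (hsurj : Function.Surjective (towerCharK p hp2 L N j m h hj)) :
    ∃ z : JIS L S, (∀ g ∈ N, (JIS L S).ρ g z = z) ∧
      addOrderOf ((RecT.totalSysU hp2 L S).S N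
        (carry (JIS L S) (towerCharL p L hp2 (j + m) h) z)) = p ^ m :=
  exists_sys_carry_addOrderOf p L S hp2 hL FrobSys98.Tame.qzProj FrobSys98.Tame.qzProj_one
    (fun _ => rfl) (RecT.totalSysU hp2 L S) (RecTSeam.totalSysU_comap_inr hp2) N j m h hj hm hsurj

end Fermat.Agent.S55.FullDeg6
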