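/-
S55 / leaf 35f-FULLDEG-PLACE (helper6), part 1: two generic number-field lemmas (Mathlib only).

* `exists_finite_bad` : for a subfield `F` of a number field `L` there is a finite set of primes of
  `𝓞 L` outside of which every automorphism of `L` acting trivially on `𝓞 F` modulo the prime
  fixes `F` pointwise (no ramification theory: the differences `τ b - b` of an integral basis have
  only finitely many prime divisors).
* `card_quot_le_of_forall_pow_sub_mem` : if `y ^ ℓ ≡ y` modulo a maximal ideal for all `y`, the residue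
  field has at most `ℓ` elements.
-/
import Mathlib

set_option autoImplicit false
set_option linter.style.haveILetI false

open NumberField IsDedekindDomain

namespace Fermat.Agent.S55.FullDeg6

/-- the primes of a Dedekind domain containing a nonzero element are finite in number. -/
theorem finite_setOf_mem {R : Type*} [CommRing R] [IsDedekindDomain R] {n : R} (hn : n ≠ 0) :
    {w : HeightOneSpectrum R | n ∈ w.asIdeal}.Finite := by
  have h0 : Ideal.span {n} ≠ 0 := by
    rw [Ne, Ideal.zero_eq_bot, Ideal.span_singleton_eq_bot]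
    exact hn
  refine (Ideal.finite_factors h0).subset ?_
  intro P hP
  change P.asIdeal ∣ _
  rw [Ideal.dvd_span_singleton]
  exact hP

section Bad

variable {L : Type*} [Field L] [NumberField L] (F : IntermediateField ℚ L)

/-- Outside a finite set of primes `𝔓` of `𝓞 L`, an automorphism `φ` of `L` which is the identity on
`𝓞 F` modulo `𝔓` fixes `F` pointwise. -/
theorem exists_finite_bad :
    ∃ B₁ : Set (HeightOneSpectrum (𝓞 L)), B₁.Finite ∧
      ∀ 𝔓 : HeightOneSpectrum (𝓞 L), 𝔓 ∉ B₁ → ∀ φ : L ≃ₐ[ℚ] L,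
        (∀ x : 𝓞 F, galRestrict ℤ ℚ L (𝓞 L) φ (algebraMap (𝓞 F) (𝓞 L) x) -
            algebraMap (𝓞 F) (𝓞 L) x ∈ 𝔓.asIdeal) →
        φ ∈ F.fixingSubgroup := by
  classical
  set b := RingOfIntegers.basis F with hb
  set d : Module.Free.ChooseBasisIndex ℤ (𝓞 F) × (L ≃ₐ[ℚ] L) → 𝓞 L := fun iτ =>
    galRestrict ℤ ℚ L (𝓞 L) iτ.2 (algebraMap (𝓞 F) (𝓞 L) (b iτ.1)) -
      algebraMap (𝓞 F) (𝓞 L) (b iτ.1) with hd
  refine ⟨⋃ iτ, {𝔓 | d iτ ≠ 0 ∧ d iτ ∈ 𝔓.asIdeal}, ?_, ?_⟩
  · refine Set.finite_iUnion fun iτ => ?_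
    by_cases h0 : d iτ = 0
    · refine Set.Finite.subset Set.finite_empty ?_
      rintro 𝔓 ⟨h, -⟩
      exact absurd h0 h
    · exact (finite_setOf_mem h0).subset fun 𝔓 h => h.2
  · intro 𝔓 h𝔓 φ hφ
    -- `φ` fixes the integral basis
    have hfix : ∀ i, d (i, φ) = 0 := by
      intro i
      by_contra h0
      exact h𝔓 (Set.mem_iUnion.mpr ⟨(i, φ), h0, hφ (b i)⟩)
    have hfix' : ∀ i, φ (algebraMap (𝓞 L) L (algebraMap (𝓞 F) (𝓞 L) (b i))) =
        algebraMap (𝓞 L) L (algebraMap (𝓞 F) (𝓞 L) (b i)) := by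
      intro i
      have := hfix i
      rw [hd] at this
      simp only at this
      rw [sub_eq_zero] at this
      rw [← algebraMap_galRestrict_apply ℤ, this]
    -- hence every integer of `F`
    have hint : ∀ a : 𝓞 F, φ (algebraMap (𝓞 L) L (algebraMap (𝓞 F) (𝓞 L) a)) =
        algebraMap (𝓞 L) L (algebraMap (𝓞 F) (𝓞 L) a) := by
      intro a
      rw [← b.sum_repr a]
      simp only [map_sum, map_zsmul, hfix']
    -- hence `F`
    rw [IntermediateField.mem_fixingSubgroup_iff]
    intro x hx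
    obtain ⟨a, c, hc, hac⟩ := IsFractionRing.div_surjective (A := 𝓞 F) (⟨x, hx⟩ : F)
    have hx' : x = algebraMap (𝓞 L) L (algebraMap (𝓞 F) (𝓞 L) a) /
        algebraMap (𝓞 L) L (algebraMap (𝓞 F) (𝓞 L) c) := by
      have h1 := congrArg (algebraMap F L) hac
      rw [map_div₀] at h1
      have h2 : ∀ z : 𝓞 F, algebraMap F L (algebraMap (𝓞 F) F z) =
          algebraMap (𝓞 L) L (algebraMap (𝓞 F) (𝓞 L) z) := fun z => rfl
      rw [h2, h2] at h1
      exact h1.symm
    rw [hx', map_div₀, hint, hint]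

end Bad

/-- If `y ^ ℓ ≡ y` modulo a maximal ideal `I` for every `y`, then `R ⧸ I` has at most `ℓ` elements. -/
theorem card_quot_le_of_forall_pow_sub_mem {R : Type*} [CommRing R] (I : Ideal R) [I.IsMaximal]
    [Finite (R ⧸ I)] (ℓ : ℕ) (hℓ : 1 < ℓ) (h : ∀ y : R, y ^ ℓ - y ∈ I) :
    Nat.card (R ⧸ I) ≤ ℓ := by
  classical
  letI := Ideal.Quotient.field I
  letI : Fintype (R ⧸ I) := Fintype.ofFinite _
  have hroot : ∀ z : R ⧸ I, z ∈ (Polynomial.X ^ ℓ - Polynomial.X : Polynomial (R ⧸ I)).roots := by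
    intro z
    obtain ⟨y, rfl⟩ := Ideal.Quotient.mk_surjective z
    rw [Polynomial.mem_roots (FiniteField.X_pow_card_sub_X_ne_zero (R ⧸ I) hℓ)]
    simp only [Polynomial.IsRoot.def, Polynomial.eval_sub, Polynomial.eval_pow, Polynomial.eval_X]
    rw [← map_pow, ← map_sub, Ideal.Quotient.eq_zero_iff_mem]
    exact h y
  have h1 : (Finset.univ : Finset (R ⧸ I)).val ⊆
      (Polynomial.X ^ ℓ - Polynomial.X : Polynomial (R ⧸ I)).roots := fun z _ => hroot z
  have h2 := Polynomial.card_le_degree_of_subset_roots h1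
  rw [FiniteField.X_pow_card_sub_X_natDegree_eq (R ⧸ I) hℓ] at h2
  rw [Nat.card_eq_fintype_card]
  exact h2

end Fermat.Agent.S55.FullDeg6
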